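import Mathlib
import Fermat.Agent.LT.T3.H736.ASSpec

/-!
# Row LT, tower T3, leaf T3.18a.4.3 (helper922): abstract local algebra of the level group

OFF-MAIN.  `R` a commutative ring, `O` a subring, `I` an ideal of `O` (as a subset of `R`).

* `InU922 I g` : `g - 1` and `g⁻¹ - 1` have entries in `I` (`g ∈ GL₂(R)`);
* `InGLO922 O g` : `g` and `g⁻¹` have entries in `O`;
* `InU922` is closed under products and inverses and stable under conjugation by `GL₂(O)`
  (`inU_mul922`, `inU_inv922`, `inU_conj922`);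
* `upperGL_mul922` : product of two upper triangular matrices;
* `inU_upper_iff922` : `[[a, y], [0, 1]] ∈ U(I) ↔ y ∈ I` when `a ≡ 1`, `a⁻¹ ≡ 1` modulo `I`;
* `inU_coset922` : THE LOCAL STATEMENT of the leaf.
-/

set_option autoImplicit false
set_option linter.style.haveILetI false

open scoped MatrixGroups

namespace Fermat.Agent.LT.T3.H922

open Fermat.Agent.LT.T3.AS

variable {R : Type*} [CommRing R]

/-- `I` is an ideal of the subring `O` of `R`. -/
structure IsIdl922 (O : Subring R) (I : Set R) : Prop where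
  zero : (0 : R) ∈ I
  add : ∀ {a b : R}, a ∈ I → b ∈ I → a + b ∈ I
  smul : ∀ {a b : R}, a ∈ O → b ∈ I → a * b ∈ I
  sub : ∀ {a : R}, a ∈ I → a ∈ O

theorem IsIdl922.neg {O : Subring R} {I : Set R} (h : IsIdl922 O I) {a : R} (ha : a ∈ I) :
    -a ∈ I := by
  have h1 := h.smul (O.neg_mem O.one_mem) ha
  simpa using h1

theorem IsIdl922.sub_mem {O : Subring R} {I : Set R} (h : IsIdl922 O I) {a b : R} (ha : a ∈ I)
    (hb : b ∈ I) : a - b ∈ I := by
  rw [sub_eq_add_neg]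
  exact h.add ha (h.neg hb)

theorem IsIdl922.smul' {O : Subring R} {I : Set R} (h : IsIdl922 O I) {a b : R} (ha : a ∈ I)
    (hb : b ∈ O) : a * b ∈ I := by
  rw [mul_comm]
  exact h.smul hb ha

/-- All entries of the matrix lie in the set. -/
def EntIn922 (S : Set R) (M : Matrix (Fin 2) (Fin 2) R) : Prop := ∀ i j : Fin 2, M i j ∈ S

theorem entIn_one922 (O : Subring R) : EntIn922 (O : Set R) (1 : Matrix (Fin 2) (Fin 2) R) := by
  intro i j
  by_cases h : i = j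
  · subst h
    rw [Matrix.one_apply_eq]
    exact O.one_mem
  · rw [Matrix.one_apply_ne h]
    exact O.zero_mem

theorem entIn_mul_O922 (O : Subring R) {A B : Matrix (Fin 2) (Fin 2) R}
    (hA : EntIn922 (O : Set R) A) (hB : EntIn922 (O : Set R) B) :
    EntIn922 (O : Set R) (A * B) := by
  intro i j
  rw [Matrix.mul_apply, Fin.sum_univ_two]
  exact O.add_mem (O.mul_mem (hA i 0) (hB 0 j)) (O.mul_mem (hA i 1) (hB 1 j))

theorem entIn_mul_left922 {O : Subring R} {I : Set R} (h : IsIdl922 O I)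
    {A B : Matrix (Fin 2) (Fin 2) R} (hA : EntIn922 (O : Set R) A) (hB : EntIn922 I B) :
    EntIn922 I (A * B) := by
  intro i j
  rw [Matrix.mul_apply, Fin.sum_univ_two]
  exact h.add (h.smul (hA i 0) (hB 0 j)) (h.smul (hA i 1) (hB 1 j))

theorem entIn_mul_right922 {O : Subring R} {I : Set R} (h : IsIdl922 O I)
    {A B : Matrix (Fin 2) (Fin 2) R} (hA : EntIn922 I A) (hB : EntIn922 (O : Set R) B) :
    EntIn922 I (A * B) := by
  intro i j
  rw [Matrix.mul_apply, Fin.sum_univ_two]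
  exact h.add (h.smul' (hA i 0) (hB 0 j)) (h.smul' (hA i 1) (hB 1 j))

theorem entIn_add922 {O : Subring R} {I : Set R} (h : IsIdl922 O I)
    {A B : Matrix (Fin 2) (Fin 2) R} (hA : EntIn922 I A) (hB : EntIn922 I B) :
    EntIn922 I (A + B) := fun i j => h.add (hA i j) (hB i j)

theorem entIn_O_of_sub_one922 {O : Subring R} {I : Set R} (h : IsIdl922 O I)
    {A : Matrix (Fin 2) (Fin 2) R} (hA : EntIn922 I (A - 1)) : EntIn922 (O : Set R) A := by
  intro i j
  have h1 : A i j = (A - 1) i j + (1 : Matrix (Fin 2) (Fin 2) R) i j := by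
    rw [Matrix.sub_apply]
    ring
  rw [h1]
  exact O.add_mem (h.sub (hA i j)) (entIn_one922 O i j)

/-- `g ∈ U(I)`. -/
def InU922 (I : Set R) (g : GL (Fin 2) R) : Prop :=
  EntIn922 I ((g : Matrix (Fin 2) (Fin 2) R) - 1) ∧
    EntIn922 I (((g⁻¹ : GL (Fin 2) R) : Matrix (Fin 2) (Fin 2) R) - 1)

/-- `g ∈ GL₂(O)`. -/
def InGLO922 (O : Subring R) (g : GL (Fin 2) R) : Prop :=
  EntIn922 (O : Set R) (g : Matrix (Fin 2) (Fin 2) R) ∧
    EntIn922 (O : Set R) ((g⁻¹ : GL (Fin 2) R) : Matrix (Fin 2) (Fin 2) R)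

theorem InGLO922.inv {O : Subring R} {g : GL (Fin 2) R} (h : InGLO922 O g) : InGLO922 O g⁻¹ :=
  ⟨h.2, by rw [inv_inv]; exact h.1⟩

theorem InGLO922.mul {O : Subring R} {g g' : GL (Fin 2) R} (h : InGLO922 O g)
    (h' : InGLO922 O g') : InGLO922 O (g * g') := by
  refine ⟨?_, ?_⟩
  · rw [Units.val_mul]
    exact entIn_mul_O922 O h.1 h'.1
  · rw [mul_inv_rev, Units.val_mul]
    exact entIn_mul_O922 O h'.2 h.2

theorem InU922.inGLO {O : Subring R} {I : Set R} (hI : IsIdl922 O I) {g : GL (Fin 2) R}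
    (h : InU922 I g) : InGLO922 O g :=
  ⟨entIn_O_of_sub_one922 hI h.1, entIn_O_of_sub_one922 hI h.2⟩

theorem InU922.inv {I : Set R} {g : GL (Fin 2) R} (h : InU922 I g) : InU922 I g⁻¹ :=
  ⟨h.2, by rw [inv_inv]; exact h.1⟩

theorem mul_sub_one922 (A B : Matrix (Fin 2) (Fin 2) R) :
    A * B - 1 = (A - 1) * B + (B - 1) := by
  rw [sub_mul, one_mul]
  abel

theorem InU922.mul {O : Subring R} {I : Set R} (hI : IsIdl922 O I) {g g' : GL (Fin 2) R}
    (h : InU922 I g) (h' : InU922 I g') : InU922 I (g * g') := by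
  refine ⟨?_, ?_⟩
  · rw [Units.val_mul, mul_sub_one922]
    exact entIn_add922 hI (entIn_mul_right922 hI h.1 (entIn_O_of_sub_one922 hI h'.1)) h'.1
  · rw [mul_inv_rev, Units.val_mul, mul_sub_one922]
    exact entIn_add922 hI (entIn_mul_right922 hI h'.2 (entIn_O_of_sub_one922 hI h.2)) h.2

theorem conj_sub_one922 (k u : GL (Fin 2) R) :
    ((k * u * k⁻¹ : GL (Fin 2) R) : Matrix (Fin 2) (Fin 2) R) - 1
      = (k : Matrix (Fin 2) (Fin 2) R) * ((u : Matrix (Fin 2) (Fin 2) R) - 1)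
          * ((k⁻¹ : GL (Fin 2) R) : Matrix (Fin 2) (Fin 2) R) := by
  have h1 : (k : Matrix (Fin 2) (Fin 2) R) * ((k⁻¹ : GL (Fin 2) R) : Matrix (Fin 2) (Fin 2) R)
      = 1 := by
    rw [← Units.val_mul, mul_inv_cancel, Units.val_one]
  rw [Units.val_mul, Units.val_mul, mul_sub, sub_mul, mul_one, h1]

/-- `U(I)` is stable under conjugation by `GL₂(O)`. -/
theorem InU922.conj {O : Subring R} {I : Set R} (hI : IsIdl922 O I) {k u : GL (Fin 2) R}
    (hk : InGLO922 O k) (hu : InU922 I u) : InU922 I (k * u * k⁻¹) := by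
  refine ⟨?_, ?_⟩
  · rw [conj_sub_one922]
    exact entIn_mul_right922 hI (entIn_mul_left922 hI hk.1 hu.1) hk.2
  · have h1 : (k * u * k⁻¹)⁻¹ = k * u⁻¹ * k⁻¹ := by group
    rw [h1, conj_sub_one922]
    exact entIn_mul_right922 hI (entIn_mul_left922 hI hk.1 hu.2) hk.2

theorem inU_conj_iff922 {O : Subring R} {I : Set R} (hI : IsIdl922 O I) {k u : GL (Fin 2) R}
    (hk : InGLO922 O k) : InU922 I (k⁻¹ * u * k) ↔ InU922 I u := by
  constructor
  · intro h
    have h1 := InU922.conj hI hk h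
    have h2 : k * (k⁻¹ * u * k) * k⁻¹ = u := by group
    rwa [h2] at h1
  · intro h
    have h1 := InU922.conj hI hk.inv h
    rwa [inv_inv] at h1

theorem inU_mul_iff922 {O : Subring R} {I : Set R} (hI : IsIdl922 O I) {g g' : GL (Fin 2) R}
    (hg : InU922 I g) : InU922 I (g * g') ↔ InU922 I g' := by
  constructor
  · intro h
    have h1 := InU922.mul hI hg.inv h
    rwa [inv_mul_cancel_left] at h1
  · exact fun h => InU922.mul hI hg h

/-! ## Upper triangular matrices -/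

theorem coe_upperGL922 (c₁ c₂ : Rˣ) (x : R) :
    ((upperGL c₁ c₂ x : GL (Fin 2) R) : Matrix (Fin 2) (Fin 2) R)
      = !![(c₁ : R), x; 0, (c₂ : R)] := rfl

theorem coe_inv_upperGL922 (c₁ c₂ : Rˣ) (x : R) :
    (((upperGL c₁ c₂ x)⁻¹ : GL (Fin 2) R) : Matrix (Fin 2) (Fin 2) R)
      = !![((c₁⁻¹ : Rˣ) : R), -(((c₁⁻¹ : Rˣ) : R) * x * ((c₂⁻¹ : Rˣ) : R)); 0,
          ((c₂⁻¹ : Rˣ) : R)] := rfl

theorem upperGL_mul922 (c₁ c₂ d₁ d₂ : Rˣ) (x y : R) :
    upperGL c₁ c₂ x * upperGL d₁ d₂ y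
      = upperGL (c₁ * d₁) (c₂ * d₂) ((c₁ : R) * y + x * (d₂ : R)) := by
  apply Units.ext
  rw [Units.val_mul, coe_upperGL922, coe_upperGL922, coe_upperGL922]
  ext i j
  fin_cases i <;> fin_cases j <;> simp [Matrix.mul_apply, Fin.sum_univ_two]

/-- `[[a, y], [0, 1]] ∈ U(I) ↔ y ∈ I`, when `a - 1 ∈ I` and `a⁻¹ - 1 ∈ I`. -/
theorem inU_upper_iff922 {O : Subring R} {I : Set R} (hI : IsIdl922 O I) (a : Rˣ) (y : R)
    (ha : (a : R) - 1 ∈ I) (ha' : ((a⁻¹ : Rˣ) : R) - 1 ∈ I) :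
    InU922 I (upperGL a 1 y) ↔ y ∈ I := by
  have haO : ((a⁻¹ : Rˣ) : R) ∈ O := by
    have h1 : ((a⁻¹ : Rˣ) : R) = (((a⁻¹ : Rˣ) : R) - 1) + 1 := by ring
    rw [h1]
    exact O.add_mem (hI.sub ha') O.one_mem
  constructor
  · intro h
    have h1 := h.1 0 1
    rw [coe_upperGL922] at h1
    simpa using h1
  · intro hy
    refine ⟨?_, ?_⟩
    · rw [coe_upperGL922]
      intro i j
      fin_cases i <;> fin_cases j
      · simpa using ha
      · simpa using hy
      · simpa using hI.zero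
      · simpa using hI.zero
    · rw [coe_inv_upperGL922]
      intro i j
      fin_cases i <;> fin_cases j
      · simpa using ha'
      · have h2 : -(((a⁻¹ : Rˣ) : R) * y) ∈ I := hI.neg (hI.smul haO hy)
        simpa using h2
      · simpa using hI.zero
      · simpa using hI.zero

/-- **THE LOCAL STATEMENT.**  `k₁, k' ∈ GL₂(O)`, `a ≡ 1`, `a⁻¹ ≡ 1` modulo `I`, and
`k₁ [[c, X], [0, c₂]] k' ∈ U(I)`.  Then
`k₁ [[c a, X'], [0, c₂]] k' ∈ U(I) ↔ X' - X ∈ I`. -/
theorem inU_coset922 {O : Subring R} {I : Set R} (hI : IsIdl922 O I) {k₁ k' : GL (Fin 2) R}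
    (hk₁ : InGLO922 O k₁) (hk' : InGLO922 O k') (c c₂ a : Rˣ) (X X' : R)
    (ha : (a : R) - 1 ∈ I) (ha' : ((a⁻¹ : Rˣ) : R) - 1 ∈ I)
    (h : InU922 I (k₁ * upperGL c c₂ X * k')) :
    InU922 I (k₁ * upperGL (c * a) c₂ X' * k') ↔ X' - X ∈ I := by
  -- `c` and `c⁻¹` lie in `O`
  have hm : InGLO922 O (upperGL c c₂ X) := by
    have h1 := (hk₁.inv.mul (h.inGLO hI)).mul hk'.inv
    have h2 : k₁⁻¹ * (k₁ * upperGL c c₂ X * k') * k'⁻¹ = upperGL c c₂ X := by group
    rwa [h2] at h1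
  have hc : (c : R) ∈ O := by
    have h1 := hm.1 0 0
    rw [coe_upperGL922] at h1
    simpa using h1
  have hc' : ((c⁻¹ : Rˣ) : R) ∈ O := by
    have h1 := hm.2 0 0
    rw [coe_inv_upperGL922] at h1
    simpa using h1
  -- the factorisation
  have hfac : upperGL (c * a) c₂ X'
      = upperGL c c₂ X * upperGL a 1 (((c⁻¹ : Rˣ) : R) * (X' - X)) := by
    rw [upperGL_mul922]
    congr 1
    · rw [mul_one]
    · rw [Units.val_one, mul_one, ← mul_assoc, Units.mul_inv, one_mul]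
      ring
  have hfac2 : k₁ * upperGL (c * a) c₂ X' * k'
      = (k₁ * upperGL c c₂ X * k')
          * (k'⁻¹ * upperGL a 1 (((c⁻¹ : Rˣ) : R) * (X' - X)) * k') := by
    rw [hfac]
    group
  rw [hfac2, inU_mul_iff922 hI h, inU_conj_iff922 hI hk', inU_upper_iff922 hI a _ ha ha']
  constructor
  · intro h1
    have h2 := hI.smul hc h1
    rwa [← mul_assoc, Units.mul_inv, one_mul] at h2
  · intro h1
    exact hI.smul hc' h1

/-! ## The group `{a : a ≡ 1, a⁻¹ ≡ 1 mod I}` of units -/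

/-- The units congruent to `1` modulo `I` together with their inverse. -/
def unitsOne922 {O : Subring R} {I : Set R} (hI : IsIdl922 O I) : Subgroup Rˣ where
  carrier := {a | (a : R) - 1 ∈ I ∧ ((a⁻¹ : Rˣ) : R) - 1 ∈ I}
  one_mem' := by
    refine ⟨?_, ?_⟩
    · simpa using hI.zero
    · simpa using hI.zero
  mul_mem' := by
    rintro a b ⟨ha, ha'⟩ ⟨hb, hb'⟩
    have haO : (a : R) ∈ O := by
      have h1 : (a : R) = ((a : R) - 1) + 1 := by ring
      rw [h1]
      exact O.add_mem (hI.sub ha) O.one_mem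
    have hbO : ((b⁻¹ : Rˣ) : R) ∈ O := by
      have h1 : ((b⁻¹ : Rˣ) : R) = (((b⁻¹ : Rˣ) : R) - 1) + 1 := by ring
      rw [h1]
      exact O.add_mem (hI.sub hb') O.one_mem
    refine ⟨?_, ?_⟩
    · have h1 : ((a * b : Rˣ) : R) - 1 = (a : R) * ((b : R) - 1) + ((a : R) - 1) := by
        rw [Units.val_mul]
        ring
      rw [h1]
      exact hI.add (hI.smul haO hb) ha
    · have h1 : (((a * b)⁻¹ : Rˣ) : R) - 1
          = ((b⁻¹ : Rˣ) : R) * (((a⁻¹ : Rˣ) : R) - 1) + (((b⁻¹ : Rˣ) : R) - 1) := by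
        rw [mul_inv_rev, Units.val_mul]
        ring
      rw [h1]
      exact hI.add (hI.smul hbO ha') hb'
  inv_mem' := by
    rintro a ⟨ha, ha'⟩
    exact ⟨ha', by rw [inv_inv]; exact ha⟩

theorem mem_unitsOne922 {O : Subring R} {I : Set R} (hI : IsIdl922 O I) (a : Rˣ) :
    a ∈ unitsOne922 hI ↔ (a : R) - 1 ∈ I ∧ ((a⁻¹ : Rˣ) : R) - 1 ∈ I := Iff.rfl

end Fermat.Agent.LT.T3.H922
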