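import Mathlib
import Fermat.Agent.LT.T3.H893.NIntSpec
import Fermat.Agent.LT.T3.H922.LocalU
import Fermat.Agent.LT.H51.MS4B

/-!
# Row LT, tower T3, leaf T3.18a.4.3 `N893.OutsideCosetC` (helper922) -- OFF-MAIN

`outsideCosetC922 (K) : Fermat.Agent.LT.T3.AS.N893.OutsideCosetC K`, VERBATIM the Prop of
`LT/T3/H893/NIntSpec.lean` (helper893@8b0672b54, sha256 1ddb5c4572c4).

* `isIdl_idealClosure922` : the closure `𝔫 𝒪_v` is an ideal of `𝒪_v` (stable under the
  multiplication by `𝒪_v`: closure lemma `mem_idealClosure_of_le` of helper51, master copy);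
* `alpha_mem_unitsOne922` : `α ≡ 1 mod 𝔫 𝒪_v`, `α⁻¹ ≡ 1 mod 𝔫 𝒪_v` at `v ≠ v₀`;
* the local statement `inU_coset922` of `LocalU.lean` at every `v ≠ v₀`.
-/

set_option autoImplicit false
set_option linter.style.haveILetI false

open IsDedekindDomain NumberField MeasureTheory
open Fermat.Agent.LT.H556.A0
open scoped MatrixGroups

noncomputable section

namespace Fermat.Agent.LT.T3.H922

open Fermat.Agent.LT.T3.AS Fermat.Agent.LT.T3.AS.N893 Fermat.Agent.LT.T1

variable {K : Type} [Field K] [NumberField K]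

/-- The local integers as a subring of `K_v`. -/
abbrev intO922 (v : HeightOneSpectrum (𝓞 K)) : Subring (v.adicCompletion K) :=
  (v.adicCompletionIntegers K).toSubring

/-- The image of a global integer in `K_v`. -/
def imO922 (v : HeightOneSpectrum (𝓞 K)) (x : 𝓞 K) : v.adicCompletion K :=
  algebraMap K (v.adicCompletion K) (algebraMap (𝓞 K) K x)

theorem valued_imO922 (v : HeightOneSpectrum (𝓞 K)) (x : 𝓞 K) :
    Valued.v (imO922 v x) = v.valuation K (algebraMap (𝓞 K) K x) :=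
  Fermat.Agent.LT.H51.MS4.valued_algebraMap v _

theorem imO_mem_int922 (v : HeightOneSpectrum (𝓞 K)) (x : 𝓞 K) :
    imO922 v x ∈ v.adicCompletionIntegers K := by
  rw [HeightOneSpectrum.mem_adicCompletionIntegers, valued_imO922]
  exact v.valuation_le_one x

theorem imO_mem_idealClosure922 (𝔫 : Ideal (𝓞 K)) (v : HeightOneSpectrum (𝓞 K)) {x : 𝓞 K}
    (hx : x ∈ 𝔫) : imO922 v x ∈ idealClosure 𝔫 v :=
  subset_closure ⟨x, hx, rfl⟩

theorem idealClosure_subset_int922 (𝔫 : Ideal (𝓞 K)) (v : HeightOneSpectrum (𝓞 K)) :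
    idealClosure 𝔫 v ⊆ (v.adicCompletionIntegers K : Set (v.adicCompletion K)) := by
  refine closure_minimal ?_ (Valued.isClosed_valuationSubring (v.adicCompletion K))
  rintro _ ⟨x, -, rfl⟩
  exact imO_mem_int922 v x

/-- The closure of `𝔫` in `K_v` is an ideal of `𝒪_v`. -/
theorem isIdl_idealClosure922 (𝔫 : Ideal (𝓞 K)) (v : HeightOneSpectrum (𝓞 K)) :
    IsIdl922 (intO922 v) (idealClosure 𝔫 v) where
  zero := subset_closure ⟨0, 𝔫.zero_mem, by simp⟩
  add := by
    intro a b ha hb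
    refine map_mem_closure₂ continuous_add ha hb ?_
    rintro _ ⟨x, hx, rfl⟩ _ ⟨y, hy, rfl⟩
    exact ⟨x + y, 𝔫.add_mem hx hy, by simp⟩
  smul := by
    intro a b ha hb
    have hcl : closure (idealClosure 𝔫 v) = idealClosure 𝔫 v := closure_closure
    rw [← hcl]
    refine map_mem_closure (f := fun y => a * y) (continuous_const.mul continuous_id) hb ?_
    rintro _ ⟨x, hx, rfl⟩
    refine Fermat.Agent.LT.H51.MS4.mem_idealClosure_of_le v hx ?_
    have h1 : Valued.v (a * algebraMap K (v.adicCompletion K) (algebraMap (𝓞 K) K x))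
        = Valued.v a * v.valuation K (algebraMap (𝓞 K) K x) := by
      rw [map_mul, Fermat.Agent.LT.H51.MS4.valued_algebraMap]
    rw [h1]
    have ha1 : Valued.v a ≤ 1 := (HeightOneSpectrum.mem_adicCompletionIntegers _ _ _).mp ha
    exact mul_le_of_le_one_left' ha1
  sub := fun ha => idealClosure_subset_int922 𝔫 v ha

/-! ## Components -/

theorem outsideU_iff922 (𝔫 : Ideal (𝓞 K)) (v₀ : HeightOneSpectrum (𝓞 K)) (h : G K) :
    OutsideU K 𝔫 v₀ h ↔
      ∀ v : HeightOneSpectrum (𝓞 K), v ≠ v₀ → InU922 (idealClosure 𝔫 v) (finGL K v h) := by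
  constructor
  · intro H v hv
    refine ⟨fun i j => (H v hv i j).1, fun i j => ?_⟩
    rw [← map_inv]
    exact (H v hv i j).2
  · intro H v hv i j
    refine ⟨(H v hv).1 i j, ?_⟩
    have h2 := (H v hv).2 i j
    rw [← map_inv] at h2
    exact h2

theorem inGLO_of_stdCompact922 {k : G K} (hk : IsStdCompact K k) (v : HeightOneSpectrum (𝓞 K)) :
    InGLO922 (intO922 v) (finGL K v k) := by
  refine ⟨fun i j => (hk.1 v).1 i j, fun i j => ?_⟩
  rw [← map_inv]
  exact (hk.1 v).2 i j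

theorem finGL_upperGL922 (v : HeightOneSpectrum (𝓞 K)) (c₁ c₂ : (Adl K)ˣ) (X : Adl K) :
    finGL K v (upperGL c₁ c₂ X) = upperGL (finU K v c₁) (finU K v c₂) (finHom K v X) := by
  apply Units.ext
  refine Matrix.ext fun i j => ?_
  rw [finGL_coe, coe_upperGL922]
  show finHom K v (((upperGL c₁ c₂ X : G K) : Matrix (Fin 2) (Fin 2) (Adl K)) i j) = _
  rw [coe_upperGL922]
  fin_cases i <;> fin_cases j <;> simp [finU_coe]

/-- The image of `α` in `K_v` as a unit. -/
theorem finU_ratUnit_coe922 (v : HeightOneSpectrum (𝓞 K)) (α : Kˣ) :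
    ((finU K v (ratUnit K α) : (v.adicCompletion K)ˣ) : v.adicCompletion K)
      = algebraMap K (v.adicCompletion K) (α : K) := by
  rw [Fermat.Agent.LT.H51.MS4.algebraMap_eq_coe]
  rfl

/-- Under `Frame`, `a₀` does not lie in the primes `v ≠ v₀`. -/
theorem a0_not_mem922 {𝔫 : Ideal (𝓞 K)} {v₀ : HeightOneSpectrum (𝓞 K)} {a₀ : 𝓞 K} {n : ℕ}
    {α : Kˣ} (hF : Frame K 𝔫 v₀ a₀ n α) {v : HeightOneSpectrum (𝓞 K)} (hv : v ≠ v₀) :
    a₀ ∉ v.asIdeal := by
  intro ha
  have h1 : v₀.asIdeal ^ n ≤ v.asIdeal := by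
    rw [← hF.span, Ideal.span_le]
    intro x hx
    rw [Set.mem_singleton_iff] at hx
    rw [hx]
    exact ha
  have h2 : v₀.asIdeal ≤ v.asIdeal := v.isPrime.le_of_pow_le h1
  have h3 : v₀.asIdeal = v.asIdeal := v₀.isMaximal.eq_of_le v.isPrime.ne_top h2
  exact hv (HeightOneSpectrum.ext h3.symm)

/-- `α ≡ 1` and `α⁻¹ ≡ 1` modulo `𝔫 𝒪_v` at `v ≠ v₀`. -/
theorem alpha_mem_unitsOne922 {𝔫 : Ideal (𝓞 K)} {v₀ : HeightOneSpectrum (𝓞 K)} {a₀ : 𝓞 K}
    {n : ℕ} {α : Kˣ} (hF : Frame K 𝔫 v₀ a₀ n α) {v : HeightOneSpectrum (𝓞 K)} (hv : v ≠ v₀) :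
    finU K v (ratUnit K α) ∈ unitsOne922 (isIdl_idealClosure922 𝔫 v) := by
  have hI := isIdl_idealClosure922 𝔫 v
  have hu : ((finU K v (ratUnit K α) : (v.adicCompletion K)ˣ) : v.adicCompletion K)
      = imO922 v a₀ := by
    rw [finU_ratUnit_coe922, hF.coe]
    rfl
  have h1 : ((finU K v (ratUnit K α) : (v.adicCompletion K)ˣ) : v.adicCompletion K) - 1
      ∈ idealClosure 𝔫 v := by
    have h2 : imO922 v a₀ - 1 = imO922 v (a₀ - 1) := by
      unfold imO922
      rw [map_sub, map_sub, map_one, map_one]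
    rw [hu, h2]
    exact imO_mem_idealClosure922 𝔫 v hF.cong
  have hval : Valued.v (imO922 v a₀) = 1 := by
    rw [valued_imO922]
    refine le_antisymm (v.valuation_le_one a₀) ?_
    by_contra hlt
    rw [not_le] at hlt
    exact a0_not_mem922 hF hv ((v.valuation_lt_one_iff_mem a₀).mp hlt)
  have hinvO : (((finU K v (ratUnit K α))⁻¹ : (v.adicCompletion K)ˣ) : v.adicCompletion K)
      ∈ intO922 v := by
    show _ ∈ v.adicCompletionIntegers K
    rw [HeightOneSpectrum.mem_adicCompletionIntegers, Units.val_inv_eq_inv_val, map_inv₀, hu,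
      hval, inv_one]
  refine ⟨h1, ?_⟩
  have h3 : (((finU K v (ratUnit K α))⁻¹ : (v.adicCompletion K)ˣ) : v.adicCompletion K) - 1
      = -((((finU K v (ratUnit K α))⁻¹ : (v.adicCompletion K)ˣ) : v.adicCompletion K)
          * (((finU K v (ratUnit K α) : (v.adicCompletion K)ˣ) : v.adicCompletion K) - 1)) := by
    rw [mul_sub, Units.inv_mul, mul_one]
    ring
  rw [h3]
  exact hI.neg (hI.smul hinvO h1)

/-- **LEAF T3.18a.4.3 `OutsideCosetC`.** -/
theorem outsideCosetC922 (K : Type) [Field K] [NumberField K] : OutsideCosetC K := by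
  intro 𝔫 v₀ a₀ n α hF k₁ k' hk₁ hk' c₁ c₂ j j' X X' hout
  rw [outsideU_iff922] at hout ⊢
  have key : ∀ v : HeightOneSpectrum (𝓞 K), v ≠ v₀ →
      (InU922 (idealClosure 𝔫 v)
          (finGL K v (k₁ * upperGL (c₁ * ratUnit K α ^ j') c₂ X' * k'))
        ↔ finHom K v (X' - X) ∈ idealClosure 𝔫 v) := by
    intro v hv
    have hI := isIdl_idealClosure922 𝔫 v
    have h0 := hout v hv
    rw [map_mul, map_mul, finGL_upperGL922, map_mul, map_zpow] at h0
    rw [map_mul, map_mul, finGL_upperGL922, map_mul, map_zpow, map_sub]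
    have ha := Subgroup.zpow_mem _ (alpha_mem_unitsOne922 hF hv) (j' - j)
    have hfac : finU K v c₁ * finU K v (ratUnit K α) ^ j'
        = (finU K v c₁ * finU K v (ratUnit K α) ^ j) * finU K v (ratUnit K α) ^ (j' - j) := by
      rw [mul_assoc, ← zpow_add]
      congr 2
      ring
    rw [hfac]
    exact inU_coset922 hI (inGLO_of_stdCompact922 hk₁ v) (inGLO_of_stdCompact922 hk' v) _ _ _ _ _
      ha.1 ha.2 h0
  constructor
  · intro H v hv
    exact (key v hv).mp (H v hv)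
  · intro H v hv
    exact (key v hv).mpr (H v hv)

end Fermat.Agent.LT.T3.H922

end
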